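/-
S55 / P7' (helper96): the COUNT at one level, in level-cohomology vocabulary.

`G` a group with level structure `𝒰` (think `G = G_{L,S}`), a finite family of local groups `H w`
with level structures `𝒱 w` and level-continuous maps `f w : H w →* G` (think `G_{L_w} → G_{L,S}`),
coefficient modules `A` (for `H¹`, think `μ_p`), `C` (target of the cup product, `μ_p ⊗ μ_p`) and
`M` (for `H²`, think `μ_p`).  With

* the Kummer complex `E →κ H¹(𝒰; A) →π T` (`κ` injective, `π` surjective, `π ∘ κ = 0`),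
  `s ≤ dim E`,
* local functionals `Λ w` on `H²(𝒱 w; C)` with the reciprocity law `∑ w, Λ w (res_w z) = 0`,
* left non-degenerate local forms `Λ w ∘ ∪` on `H¹(𝒱 w; A)`, with `∑ w, dim H¹(𝒱 w; A) ≤ 2 s`,
* `dim sha²(M) ≤ dim T`,

one gets `dim sha²(M) ≤ dim sha¹(A)`, where `shaⁱ = ⋂ w, ker res_w`.
This is `LevelCup47.Iso.le_finrank_sha1` (helper47) + `Count96.finrank_add_finrank_le_of_complex`.
-/
import Fermat.Agent.S55.LevelCup47.Isotropy
import Fermat.Agent.S55.Count96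

set_option autoImplicit false

universe u

open CategoryTheory groupCohomology Module

namespace Fermat.Agent.S55.CountWire96

open Fermat.Agent.S55.Profin15 Fermat.Agent.S55.Cup90 Fermat.Agent.S55.LevelCup47

section

variable {k G : Type u} [Field k] [Group G] {𝒰 : LevelStr G}
variable {ι : Type*} {H : ι → Type u} [∀ w, Group (H w)] {𝒱 : ∀ w, LevelStr (H w)}
  {f : ∀ w, H w →* G} (hf : ∀ w, LevelStr.IsContinuous (𝒱 w) 𝒰 (f w))

/-- `sha¹ = ⋂ w, ker (res_w)` in level cohomology -/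
def sha1 (A : Rep.{u} k G) : Submodule k (𝒰.H1 A) :=
  ⨅ w, LinearMap.ker ((hf w).res₁ A)

/-- `sha² = ⋂ w, ker (res_w)` in level cohomology -/
def sha2 (M : Rep.{u} k G) : Submodule k (𝒰.H2 M) :=
  ⨅ w, LinearMap.ker ((hf w).res₂ M)

theorem mem_sha1_iff (A : Rep.{u} k G) (x : 𝒰.H1 A) :
    x ∈ sha1 hf A ↔ ∀ w, (hf w).res₁ A x = 0 := by
  simp [sha1, Submodule.mem_iInf]

theorem mem_sha2_iff (M : Rep.{u} k G) (x : 𝒰.H2 M) :
    x ∈ sha2 hf M ↔ ∀ w, (hf w).res₂ M x = 0 := by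
  simp [sha2, Submodule.mem_iInf]

variable [Fintype ι] [DecidableEq ι]
variable {A C : Rep.{u} k G} (φ : Pairing A A C)
  (Λ : ∀ w, (𝒱 w).H2 (Rep.res (f w) C) →ₗ[k] k)

/-- **The count at one level.** -/
theorem finrank_sha2_le_finrank_sha1 (hA : 𝒰.IsSmooth A)
    [FiniteDimensional k (𝒰.H1 A)]
    [∀ w, FiniteDimensional k ((𝒱 w).H1 (Rep.res (f w) A))]
    (hnd : ∀ w, (Iso.locPair φ hf Λ hA w).SeparatingLeft)
    (hrec : ∀ z : 𝒰.H2 C, ∑ w, Λ w ((hf w).res₂ C z) = 0)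
    {E T : Type*} [AddCommGroup E] [Module k E] [AddCommGroup T] [Module k T]
    (κ : E →ₗ[k] 𝒰.H1 A) (hκ : Function.Injective κ)
    (π : 𝒰.H1 A →ₗ[k] T) (hπ : Function.Surjective π) (hπκ : ∀ e, π (κ e) = 0)
    (s : ℕ) (hs : s ≤ finrank k E)
    (hW : ∑ w, finrank k ((𝒱 w).H1 (Rep.res (f w) A)) ≤ 2 * s)
    (M : Rep.{u} k G) (hQ : finrank k (sha2 hf M) ≤ finrank k T) :
    finrank k (sha2 hf M) ≤ finrank k (sha1 hf A) := by
  have h1 := Count96.finrank_add_finrank_le_of_complex κ hκ π hπ hπκ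
  exact Iso.le_finrank_sha1 φ hf Λ hA hnd hrec (d := s) (c := finrank k (sha2 hf M)) hW
    (by omega)

end

end Fermat.Agent.S55.CountWire96
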