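/-
S55 / P7' (helper96): the SEAM OBJECT between the Kummer input (K) and the `sha²` input (Q) of the
count at a level `U` (`μ_p` trivial on `U`), pinned in landed vocabulary.

* `piU U : GQ →* GQ ⧸ U`, `levU S U hU` the level structure `kerLevels (globalLevels S) _` on
  `↥(piU U).ker` (`= ↥U`), `kU p U = triv (ZMod p) ↥(piU U).ker` (`= μ_p|_U`),
  `ESU S U` the restriction of helper20's `ESRep S` (`= E_S` as a `ℤ[U]`-module);
* `jU : kU →+ ESU` (`a ↦ ζ^a`), equivariant because `μ_p` is trivial on `U`;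
* `kummerKer : Submodule (ZMod p) (H¹(U, 𝔽_p))` `:= ker (H¹(U, 𝔽_p) → H¹(U, E_S))`
  (`= image of E_{L,S}/p` under the Kummer connecting map, `H¹/kummerKer = H¹(U, E_S)[p]`).

THE TWO INPUTS (both about the ONE object `kummerKer`):
  (K)  `s ≤ finrank kummerKer`                       [Kummer δ₀ + `dim E_{L,S}/p = s`]
  (Q)  `c ≤ finrank (H¹(U, 𝔽_p) ⧸ kummerKer)`        [`c = dim sha²(U, μ_p) = dim A_U/p ≤ dim A_U[p]`]
and their consequence `s + c ≤ finrank H¹(U, 𝔽_p)` (= hypothesis `hB` of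
`LevelCup47.Iso.le_finrank_sha1`).
-/
import Fermat.Agent.S55.ShapiroLevel32.Equiv
import Fermat.Agent.S55.ESKummer20
import Fermat.Agent.S55.LevelScalars13.Basic
import Fermat.Agent.S55.Contract34

set_option autoImplicit false
set_option linter.unusedSectionVars false

open CategoryTheory groupCohomology Module ExtCitation

namespace Fermat.Agent.S55.CountWire96

open Fermat.Agent.S55.Profin15 Fermat.Agent.S55.ShapiroLevel32 Fermat.Agent.S55.LevelScalars13
open Fermat.Agent.S55.ESRep20 Fermat.Agent.S55.ESKummer20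
open Fermat.Agent.Lib.FrobeniusExists (Qb GQ)

variable (p : ℕ) [Fact p.Prime] (S : Finset Nat.Primes) (U : Subgroup GQ) [U.Normal]

/-- the projection `G_ℚ → G_ℚ/U` -/
noncomputable abbrev piU : GQ →* GQ ⧸ U := QuotientGroup.mk' U

theorem ker_piU : (piU U).ker = U := QuotientGroup.ker_mk' U

variable {S U} in
theorem hkerU (hU : U ∈ (globalLevels S).levels) :
    ∃ V ∈ (globalLevels S).levels, V ≤ (piU U).ker :=
  ⟨U, hU, (ker_piU U).ge⟩

/-- the level structure on `U` (as `↥(piU U).ker`) induced by `globalLevels S` -/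
noncomputable abbrev levU (hU : U ∈ (globalLevels S).levels) : LevelStr ↥(piU U).ker :=
  kerLevels (globalLevels S) (hkerU hU)

/-- the trivial module `𝔽_p` of `U` (`= μ_p` restricted to `U` when `μ_p` is trivial on `U`) -/
noncomputable abbrev kU : Rep (ZMod p) ↥(piU U).ker := triv (ZMod p) ↥(piU U).ker

/-- `E_S` as a `ℤ[U]`-module -/
noncomputable abbrev ESU : Rep ℤ ↥(piU U).ker := Rep.res (piU U).ker.subtype (ESRep S)

/-- `a ↦ ζ^a : 𝔽_p → E_S` -/
noncomputable def jU (hpS : pPrime p ∈ S) (ζ : Qbˣ) (hζ : ζ ^ p = 1) : kU p U →+ ESU S U :=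
  jmu (S := S) hpS ζ hζ

variable {p U} in
theorem cycloChar_eq_one_of_mu (hmu : ∀ s ∈ U, (Contract34.mu p).ρ s = 1) {s : GQ} (hs : s ∈ U) :
    ((cycloChar p s : (ZMod p)ˣ) : ZMod p) = 1 := by
  have h := LinearMap.congr_fun (hmu s hs) (1 : ZMod p)
  have h2 : (Contract34.mu p).ρ s (1 : ZMod p) = ((cycloChar p s : (ZMod p)ˣ) : ZMod p) • (1 : ZMod p) :=
    rfl
  rw [h2] at h
  simpa using h

variable {p S U} in
theorem jU_equivariant (hpS : pPrime p ∈ S) (ζ : Qbˣ) (hζ : ζ ^ p = 1)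
    (hmu : ∀ s ∈ U, (Contract34.mu p).ρ s = 1) : IsAddEquivariant (jU p S U hpS ζ hζ) := by
  intro g a
  have hg : (g : GQ) ∈ U := (ker_piU U).le g.2
  have h := jmu_equivariant (S := S) hpS ζ hζ (g : GQ) a
  rw [cycloChar_eq_one_of_mu hmu hg, one_mul] at h
  exact h

/-- `ker (H¹(U, 𝔽_p) → H¹(U, E_S))`, the Kummer image of `E_{L,S}/p`. -/
noncomputable def kummerKer (hU : U ∈ (globalLevels S).levels) (hpS : pPrime p ∈ S) (ζ : Qbˣ)
    (hζ : ζ ^ p = 1) (hmu : ∀ s ∈ U, (Contract34.mu p).ρ s = 1) :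
    Submodule (ZMod p) ((levU S U hU).H1 (kU p U)) :=
  (AddMonoidHom.ker (addH1map (levU S U hU) (jU p S U hpS ζ hζ)
    (jU_equivariant hpS ζ hζ hmu))).toZModSubmodule p

variable {p S U} in
theorem mem_kummerKer_iff (hU : U ∈ (globalLevels S).levels) (hpS : pPrime p ∈ S) (ζ : Qbˣ)
    (hζ : ζ ^ p = 1) (hmu : ∀ s ∈ U, (Contract34.mu p).ρ s = 1)
    (x : (levU S U hU).H1 (kU p U)) :
    x ∈ kummerKer p S U hU hpS ζ hζ hmu ↔
      addH1map (levU S U hU) (jU p S U hpS ζ hζ) (jU_equivariant hpS ζ hζ hmu) x = 0 :=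
  Iff.rfl

/-- **(K) + (Q) ⟹ `hB`.** -/
theorem add_le_finrank_H1 (hU : U ∈ (globalLevels S).levels) (hpS : pPrime p ∈ S) (ζ : Qbˣ)
    (hζ : ζ ^ p = 1) (hmu : ∀ s ∈ U, (Contract34.mu p).ρ s = 1)
    [FiniteDimensional (ZMod p) ((levU S U hU).H1 (kU p U))] (s c : ℕ)
    (hK : s ≤ finrank (ZMod p) (kummerKer p S U hU hpS ζ hζ hmu))
    (hQ : c ≤ finrank (ZMod p)
      ((levU S U hU).H1 (kU p U) ⧸ kummerKer p S U hU hpS ζ hζ hmu)) :
    s + c ≤ finrank (ZMod p) ((levU S U hU).H1 (kU p U)) := by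
  have := Submodule.finrank_quotient_add_finrank (kummerKer p S U hU hpS ζ hζ hmu)
  omega

end Fermat.Agent.S55.CountWire96
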