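/-
S55 / P7' (helper96): the input `finH1` of `CountWire23.LevelInputs`:
`H¹(G_{L,S}, 𝔽_p)` is FINITE for every level `U` (fixed field `L`), in the literal shape

  `Module.Finite (ZMod p) ((kerLevels (globalLevels S) (hker_mk' hU)).H1 (triv (ZMod p) ↥(mk' U).ker))`.

Proof: `Fin62.finite_continuousH1S` (helper62: `H¹(G_S, A)` is finite for finite smooth `A`,
Hermite–Minkowski-free Kummer argument) applied to `A = 𝔽_p[G_ℚ/U]`, transported along
`Profin15.continuousH1SEquiv` (helper15) and the level Shapiro isomorphism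
`ShapiroLevel32.shapiroH1` (helper32) with the coordinates `permCoord`.  No arithmetic input is left.
-/
import Fermat.Agent.S55.Fin62.Main
import Fermat.Agent.S55.ShaTransport84.Global

set_option autoImplicit false

open CategoryTheory groupCohomology Module ExtCitation

namespace Fermat.Agent.S55.CountWire96

open Fermat.Agent.S55.Profin15 Fermat.Agent.S55.ShapiroLevel32 Fermat.Agent.S55.ShaTransport84
open Fermat.Agent.Lib.FrobeniusExists (Qb GQ)
open Fermat.Agent.S55.Contract34

variable (p : ℕ) [Fact p.Prime] (S : Finset Nat.Primes)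

/-- a normal subgroup `U` acts trivially on `𝔽_p[G_ℚ/U]` -/
theorem perm_ρ_eq_one_of_mem (U : Subgroup GQ) [hn : U.Normal] (s : GQ) (hs : s ∈ U) :
    (perm p U).ρ s = 1 := by
  refine LinearMap.ext fun a => ?_
  induction a using MonoidAlgebra.induction_linear with
  | zero => simp
  | add x y hx hy => rw [map_add, hx, hy, map_add]
  | single x r =>
    show Representation.ofMulAction _ _ _ s (MonoidAlgebra.single x r) = MonoidAlgebra.single x r
    rw [Representation.ofMulAction_single]
    congr 1
    induction x using QuotientGroup.induction_on with | H g =>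
    show ((s * g : GQ) : GQ ⧸ U) = (g : GQ ⧸ U)
    rw [QuotientGroup.eq]
    have h1 : (s * g)⁻¹ * g = g⁻¹ * s⁻¹ * g⁻¹⁻¹ := by group
    rw [h1]
    exact hn.conj_mem s⁻¹ (U.inv_mem hs) g⁻¹

/-- `𝔽_p[G_ℚ/U]` is finite-dimensional for a level `U` -/
theorem finiteDimensional_perm {U : Subgroup GQ} (hU : U ∈ (globalLevels S).levels) :
    FiniteDimensional (ZMod p) (perm p U) := by
  have : U.FiniteIndex := (globalLevels S).finiteIndex U hU
  have : Finite (GQ ⧸ U) := Subgroup.finite_quotient_of_finiteIndex
  exact inferInstanceAs (FiniteDimensional (ZMod p) (MonoidAlgebra (ZMod p) (GQ ⧸ U)))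

/-- `H¹(globalLevels S; 𝔽_p[G_ℚ/U])` is finite -/
theorem finite_H1_perm {U : Subgroup GQ} (hU : U ∈ (globalLevels S).levels) :
    Finite ((globalLevels S).H1 (perm p U)) := by
  have : U.Normal := (globalLevels S).normal U hU
  have := finiteDimensional_perm p S hU
  obtain ⟨-, F, hF, rfl⟩ := hU
  have : Finite ↥(continuousH1S S (perm p F.fixingSubgroup)) :=
    Fin62.Main.finite_continuousH1S S (perm p F.fixingSubgroup) (fun m =>
      ⟨F, hF.1, fun s hs => by rw [perm_ρ_eq_one_of_mem p F.fixingSubgroup s hs]; rfl⟩)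
  exact Finite.of_equiv _ (continuousH1SEquiv S (perm p F.fixingSubgroup)).toEquiv

/-- **`finH1`** : `H¹(G_{L,S}, 𝔽_p)` is finite, in the literal shape of
`CountWire23.LevelInputs.finH1` / `ShaTransport84.hilbertCountL_level`. -/
theorem finite_H1_levU {U : Subgroup GQ} [U.Normal] (hU : U ∈ (globalLevels S).levels) :
    Module.Finite (ZMod p) ((kerLevels (globalLevels S) (hker_mk' hU)).H1
      (triv (ZMod p) (QuotientGroup.mk' U).ker)) := by
  classical
  obtain ⟨σ⟩ := exists_sect (QuotientGroup.mk'_surjective U)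
  have : U.FiniteIndex := (globalLevels S).finiteIndex U hU
  have : Finite (GQ ⧸ U) := Subgroup.finite_quotient_of_finiteIndex
  have := finite_H1_perm p S hU
  have : Finite ((kerLevels (globalLevels S) (hker_mk' hU)).H1
      (triv (ZMod p) (QuotientGroup.mk' U).ker)) :=
    Finite.of_equiv _ (shapiroH1 (globalLevels S) (hker_mk' hU)
      (ShaTransport84.permCoord (ZMod p) U) σ).toEquiv
  exact Module.Finite.of_finite

end Fermat.Agent.S55.CountWire96
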