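/-
S55 / P7' (helper96): the LAST deep input `hsha` of the count at a level `U`
(`S2Count92.levelInputs_of_hsha`, `S2Count92.finrank_sha_le_finrank_quot_kummerKer`), i.e.

  `∀ x ∈ USha₂ … t, ∃ a, kummerδ₁U hU hpS ζ hζ hmu a = x`      (`Ш²(U, 𝔽_p) ⊆ δ₁ H¹(U, E_S)`),

as a LITERAL COROLLARY of helper41's kernel half of (S1) over an open subgroup
(`S1Limit41.Global.sha2_iffV`) at `V := (piU U).ker`, with helper41's named inputs verbatim.

Seams used (all `rfl`): `ShapiroLevel32.restrictLevels = CD3.restrictLevels` (same `levels`),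
`CountWire23.levU = CountWire96.levU = S1Limit41.Global.levV`, `ESU S U = EV S V`.
The coefficient change `𝔽_p ≃ μ_p` (`muTrivEquiv`) commutes with restriction
(`LevelScalars13.res₂_eq_zero_iff`).
-/
import Fermat.Agent.S55.S1Limit41.Global
import Fermat.Agent.S55.S2Count92.LevelInputs92
import Fermat.Agent.S55.CountWire23.FinH1

set_option autoImplicit false
set_option linter.unusedSectionVars false

open CategoryTheory groupCohomology Module ExtCitation

noncomputable section

namespace Fermat.Agent.S55.CountWire96.Hsha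

open Fermat.Agent.S55.Profin15 Fermat.Agent.S55.Profin15.LevelStr
open Fermat.Agent.S55.ShapiroLevel32 Fermat.Agent.S55.ShaTransport84
open Fermat.Agent.S55.LevelScalars13
open Fermat.Agent.S55.ESRep20 Fermat.Agent.S55.ESKummer20
open Fermat.Agent.S55.GlobalMod94.JS Fermat.Agent.S55.ClassLimit72
open Fermat.Agent.S55.S1Limit41.H1Cofinal Fermat.Agent.S55.S1Limit41.Global
open Fermat.Agent.S55.CountWire96
open Fermat.Agent.Lib.FrobeniusExists (Qb GQ)

variable {p : ℕ} [Fact p.Prime] {S : Finset Nat.Primes} {U : Subgroup GQ} [U.Normal]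
  (hU : U ∈ (globalLevels S).levels) (hpS : pPrime p ∈ S) (ζ : Qbˣ)
  (hζ : IsPrimitiveRoot ζ p) (hmu : ∀ s ∈ U, (Contract34.mu p).ρ s = 1)
  {J : ↥S → Type} (t : ∀ q : ↥S, J q → GQ)

/-- the open subgroup `V = (piU U).ker` (`= U`) -/
abbrev VU (U : Subgroup GQ) [U.Normal] : Subgroup GQ := (piU U).ker

include hU in
theorem hVU : CD3.IsOpenSub (globalLevels S) (VU U) := hkerU hU

/-- the two level structures on `↥(piU U).ker` coincide -/
theorem levV_eq_levU : levV S (VU U) (hVU hU) = CountWire96.levU S U hU := rfl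

/-- restriction of `H²(U, μ_p)` to the local group at `w` (conjugate family `t`) -/
abbrev locZ (w : Σ q : ↥S, J q) :
    (levV S (VU U) (hVU hU)).H2 (ZV (VU U) p) →+
      (CountWire23.locLevels S U hU w).H2
        (Rep.res (CountWire23.locMap S U t w) (ZV (VU U) p)) :=
  ((CountWire23.locMap_isContinuous S U hU t w).res₂ (ZV (VU U) p)).toAddMonoidHom


section Main

variable [Fintype (Σ q : ↥S, J q)]
  {C Cl : Rep.{0} ℤ GQ}
  {φ : @LinearMap ℤ ℤ _ _ (RingHom.id ℤ) (CSp S) C _ _ (CSp S).hV2 C.hV2}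
  {ψ : @LinearMap ℤ ℤ _ _ (RingHom.id ℤ) C Cl _ _ C.hV2 Cl.hV2}
  {YE : (Σ q : ↥S, J q) → Type*} [∀ w, AddCommGroup (YE w)]

/-- **`hsha` at the level `U`** (the last deep input of `S2Count92.levelInputs_of_hsha`):
`Ш²(U, 𝔽_p)` for the conjugate family `t` lies in the image of the Kummer connecting map
`H¹(U, E_S) → H²(U, 𝔽_p)`.  Hypotheses = helper41's named inputs of `sha2_iffV` at
`V = (piU U).ker`, verbatim, with `W := Σ q, J q`, `YZ w :=` level `H²` of `μ_p` on the local
group at `w`, `locZ w :=` restriction along the conjugate map `t w`. -/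
theorem hsha_of_sha2_iffV
    (hCl' : ShortExact (A := CSp S) (B := C) (C := Cl) φ ψ)
    (hC : (globalLevels S).IsSmooth C) (hCl : IsPrimeToP p Cl)
    (hfin : FiniteLevelH1 (globalLevels S) p C (VU U))
    (hJ1 : ∀ x : (levV S (VU U) (hVU hU)).H1 (JV S (VU U)), x = 0)
    (κ : ∀ w : Σ q : ↥S, J q,
      (CountWire23.locLevels S U hU w).H2
        (Rep.res (CountWire23.locMap S U t w) (ZV (VU U) p)) →+ YE w)
    (locJ : ∀ w : Σ q : ↥S, J q, (levV S (VU U) (hVU hU)).H2 (JV S (VU U)) →+ YE w)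
    (hκ : ∀ w, Function.Injective (κ w))
    (hcomm : ∀ w x, κ w (locZ hU t w x) =
      locJ w ((levV S (VU U) (hVU hU)).H2map _
        (ideleV S (VU U) (nonempty_of_mem S hpS)).equivariant_left
        ((levV S (VU U) (hVU hU)).H2map _ (kummerV S (VU U) hpS).equivariant_left x)))
    (hJ2 : ∀ y : (levV S (VU U) (hVU hU)).H2 (JV S (VU U)),
      p • y = 0 → (∀ w, locJ w y = 0) → y = 0) :
    ∀ x ∈ USha₂ (k := ZMod p) (hrS S) (hker_mk' hU) t,
      ∃ a, S2Count92.kummerδ₁U hU hpS ζ hζ hmu a = x := by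
  intro x hx
  -- the coefficient change `𝔽_p ≃ μ_p`
  have he := S2Count92.muTrivEquiv_isAddEquivariant (piU U) ζ hζ
    (S2Count92.cycloChar_eq_one_of_mu_piU hmu)
  set e := addH2equiv (CountWire96.levU S U hU) (S2Count92.muTrivEquiv (piU U) ζ hζ) he with he_def
  -- `x` is locally trivial, hence so is `e x`
  have hloc : ∀ w : Σ q : ↥S, J q, locZ hU t w (e x) = 0 := by
    intro w
    have hxw : (CountWire23.locMap_isContinuous S U hU t w).res₂
        (triv (ZMod p) ↥(piU U).ker) x = 0 := by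
      have := (Submodule.mem_iInf _).1 hx w
      exact LinearMap.mem_ker.1 this
    exact (res₂_eq_zero_iff (CountWire23.locMap_isContinuous S U hU t w)
      (S2Count92.muTrivEquiv (piU U) ζ hζ) he x).2 hxw
  have key := @sha2_iffV p _ S (VU U) (hVU hU) C Cl φ ψ (Σ q : ↥S, J q) _
    (fun w => (CountWire23.locLevels S U hU w).H2
      (Rep.res (CountWire23.locMap S U t w) (ZV (VU U) p)))
    YE (fun _ => inferInstance) _ κ (locZ hU t) locJ hpS hCl' hC hCl hfin hJ1 hκ
    hcomm hJ2 (e x)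
  obtain ⟨a, ha⟩ := key.1 hloc
  refine ⟨(show (CountWire96.levU S U hU).H1 (ESU S U) from a), ?_⟩
  show e.symm _ = x
  exact (AddEquiv.symm_apply_eq e).2 ha

include ζ hζ hmu in
/-- **`CountWire23.LevelInputs` with the (K)/(Q) fields discharged**: the count at the level `U`
from the local inputs (`finLoc`, `Λ`, `hnd`, `hrec`, `hW`), the number field `L` of `U`, and
helper41's named inputs of the kernel half of (S1) at `V = (piU U).ker`.
(`finH1` = `CountWire23.finH1_levU`, `hB`/`finSha₂`/`hQ` = `S2Count92` (K)+(Q) from `hsha`.) -/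
theorem levelInputs_of_sha2_iffV
    (hcov : ∀ q : ↥S, Covers (QuotientGroup.mk' U) (rS S) t q)
    (finLoc : ∀ w : Σ q : ↥S, J q,
      Module.Finite (ZMod p) ((CountWire23.locLevels S U hU w).H1 (CountWire23.kLoc p S U w)))
    (L : IntermediateField ℚ Qb) [NumberField L]
    (hUL : U = L.fixingSubgroup) (hL : L ≤ ESDiv20.QS S)
    (T : Finset (IsDedekindDomain.HeightOneSpectrum (NumberField.RingOfIntegers L)))
    (hT : ∀ v, v ∈ T ↔ ∃ q ∈ S,
      (((q : Nat.Primes) : ℕ) : NumberField.RingOfIntegers L) ∈ v.asIdeal) (hp2 : p ≠ 2)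
    (Λ : ∀ w : Σ q : ↥S, J q,
      (CountWire23.locLevels S U hU w).H2 (CountWire23.kLoc p S U w) →ₗ[ZMod p] ZMod p)
    (hnd : ∀ w : Σ q : ↥S, J q, (CountWire23.locForm p S U hU w (Λ w)).SeparatingLeft)
    (hrec : ∀ z : (CountWire23.levU S U hU).H2 (CountWire23.kU p U),
      ∑ w : Σ q : ↥S, J q, Λ w (CountWire23.locRes₂ p S U hU t w z) = 0)
    (hW : ∑ w : Σ q : ↥S, J q,
      finrank (ZMod p) ((CountWire23.locLevels S U hU w).H1 (CountWire23.kLoc p S U w)) ≤
        2 * (T.card + NumberField.InfinitePlace.nrComplexPlaces L))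
    (hCl' : ShortExact (A := CSp S) (B := C) (C := Cl) φ ψ)
    (hC : (globalLevels S).IsSmooth C) (hCl : IsPrimeToP p Cl)
    (hfin : FiniteLevelH1 (globalLevels S) p C (VU U))
    (hJ1 : ∀ x : (levV S (VU U) (hVU hU)).H1 (JV S (VU U)), x = 0)
    (κ : ∀ w : Σ q : ↥S, J q,
      (CountWire23.locLevels S U hU w).H2
        (Rep.res (CountWire23.locMap S U t w) (ZV (VU U) p)) →+ YE w)
    (locJ : ∀ w : Σ q : ↥S, J q, (levV S (VU U) (hVU hU)).H2 (JV S (VU U)) →+ YE w)
    (hκ : ∀ w, Function.Injective (κ w))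
    (hcomm : ∀ w x, κ w (locZ hU t w x) =
      locJ w ((levV S (VU U) (hVU hU)).H2map _
        (ideleV S (VU U) (nonempty_of_mem S hpS)).equivariant_left
        ((levV S (VU U) (hVU hU)).H2map _ (kummerV S (VU U) hpS).equivariant_left x)))
    (hJ2 : ∀ y : (levV S (VU U) (hVU hU)).H2 (JV S (VU U)),
      p • y = 0 → (∀ w, locJ w y = 0) → y = 0) :
    CountWire23.LevelInputs p S U hU t :=
  S2Count92.levelInputs_of_hsha hU hpS ζ hζ hmu t hcov (CountWire23.finH1_levU U hU) finLoc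
    L hUL hL T hT hp2 Λ hnd hrec hW
    (hsha_of_sha2_iffV hU hpS ζ hζ hmu t hCl' hC hCl hfin hJ1 κ locJ hκ hcomm hJ2)

end Main

end Fermat.Agent.S55.CountWire96.Hsha

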