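/-
S55 / leaf 34 → 35, auxiliary lemmas for helper37's `RecTInfl` (the no-`s` form of `recT`),
helper96.

(a) GROUP THEORY: the normal core commutes with pull-back along a surjection, so the hypothesis
    `hs : ∀ i, p ^ i ∣ N.normalCore.index → i ≤ s` is the same for `N ≤ Gal(L/ℚ)` and for its
    preimage `N.comap r ≤ Gal(L'/ℚ)`.
(b) TOWER CHARACTER / CARRY COCHAIN under change of level `L ≤ L'`
    (`r : GalL L' →* GalL L` with `r ∘ resL L' = resL L`, helper54's `IdealInfl` convention):
    `towerCharL` at `L'` is `towerCharL` at `L` composed with `r`, and the carry cochain of an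
    inflated element is the inflation of the carry cochain.
-/
import Mathlib
import Fermat.Agent.S55.CycloGlobal87.Level
import Fermat.Agent.S55.GlobalInv91.Carry

set_option autoImplicit false
set_option linter.unusedSectionVars false

namespace Fermat.Agent.S55.CountWire96.RecTInflAux

open Fermat.Agent.S55.CycloGlobal87 Fermat.Agent.S55.GlobalInv91
open Fermat.Agent.S55.Idele73.Basic (Qbar GalL resL resL_apply resL_surjective Lx)

/-! ### (a) normal cores and surjections -/

section NormalCore

variable {G' G : Type*} [Group G'] [Group G] (r : G' →* G)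

/-- the normal core commutes with pull-back along a surjective homomorphism. -/
theorem normalCore_comap (hr : Function.Surjective r) (N : Subgroup G) :
    (N.comap r).normalCore = N.normalCore.comap r := by
  ext g
  constructor
  · intro hg
    rw [Subgroup.mem_comap]
    intro x
    obtain ⟨x', rfl⟩ := hr x
    have := hg x'
    rw [Subgroup.mem_comap, map_mul, map_mul, map_inv] at this
    exact this
  · intro hg x'
    rw [Subgroup.mem_comap] at hg
    rw [Subgroup.mem_comap, map_mul, map_mul, map_inv]
    exact hg (r x')

/-- the index of the normal core is unchanged by pull-back along a surjection. -/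
theorem index_normalCore_comap (hr : Function.Surjective r) (N : Subgroup G) :
    (N.comap r).normalCore.index = N.normalCore.index := by
  rw [normalCore_comap r hr N]
  exact Subgroup.index_comap_of_surjective _ hr

/-- the bound `hs` of `RecT.totalSysU_carry_eq_zero` transported to the preimage. -/
theorem hs_comap (hr : Function.Surjective r) (N : Subgroup G) {p s : ℕ}
    (hs : ∀ i, p ^ i ∣ N.normalCore.index → i ≤ s) :
    ∀ i, p ^ i ∣ (N.comap r).normalCore.index → i ≤ s := by
  intro i hi
  rw [index_normalCore_comap r hr N] at hi
  exact hs i hi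

end NormalCore

/-! ### (b) the tower character and the carry cochain under change of level -/

section Tower

variable (p : ℕ) [hp : Fact p.Prime] (hp2 : p ≠ 2)
  (L L' : IntermediateField ℚ Qbar) [Normal ℚ L] [Normal ℚ L']
  (r : GalL L' →* GalL L) (hr : r.comp (resL L') = resL L)
  (M : ℕ) (hM : towerField p M ≤ L) (hM' : towerField p M ≤ L')

include hr in
/-- the tower character at the bigger level is the pull-back of the one at the smaller level. -/
theorem towerCharL_comp_r :
    (towerCharL p L hp2 M hM).comp r = towerCharL p L' hp2 M hM' := by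
  ext g'
  obtain ⟨σ, rfl⟩ := resL_surjective L' g'
  have h1 : r (resL L' σ) = resL L σ := by rw [← hr]; rfl
  rw [MonoidHom.comp_apply, h1, towerCharL_resL, towerCharL_resL]

include hr in
theorem towerCharL_r_apply (g' : GalL L') :
    towerCharL p L hp2 M hM (r g') = towerCharL p L' hp2 M hM' g' := by
  rw [← towerCharL_comp_r p hp2 L L' r hr M hM hM']
  rfl

include hr in
theorem chiVal_towerCharL_r (g' : GalL L') :
    chiVal (towerCharL p L hp2 M hM) (r g') = chiVal (towerCharL p L' hp2 M hM') g' := by
  rw [chiVal, chiVal, towerCharL_r_apply p hp2 L L' r hr M hM hM']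

include hr in
/-- **the carry cochain of an inflated element is the inflation of the carry cochain**, for any
representations `C` of `GalL L`, `C'` of `GalL L'` and any additive `φ : C →+ C'`. -/
theorem carry_infl {k : Type} [CommRing k] (C : Rep.{0} k (GalL L)) (C' : Rep.{0} k (GalL L'))
    (φ : C →+ C') (a : C) (g' h' : GalL L') :
    haveI : NeZero (p ^ M) := ⟨pow_ne_zero _ hp.out.ne_zero⟩
    carry C' (towerCharL p L' hp2 M hM') (φ a) (g', h') =
      φ (carry C (towerCharL p L hp2 M hM) a (r g', r h')) := by
  haveI : NeZero (p ^ M) := ⟨pow_ne_zero _ hp.out.ne_zero⟩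
  rw [carry_apply, carry_apply, chiVal_towerCharL_r p hp2 L L' r hr M hM hM',
    chiVal_towerCharL_r p hp2 L L' r hr M hM hM', map_nsmul]

include hr in
/-- function form of `carry_infl`. -/
theorem carry_infl_fun {k : Type} [CommRing k] (C : Rep.{0} k (GalL L)) (C' : Rep.{0} k (GalL L'))
    (φ : C →+ C') (a : C) :
    haveI : NeZero (p ^ M) := ⟨pow_ne_zero _ hp.out.ne_zero⟩
    carry C' (towerCharL p L' hp2 M hM') (φ a) =
      fun x : GalL L' × GalL L' => φ (carry C (towerCharL p L hp2 M hM) a (r x.1, r x.2)) := by
  funext x
  exact carry_infl p hp2 L L' r hr M hM hM' C C' φ a x.1 x.2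

end Tower

end Fermat.Agent.S55.CountWire96.RecTInflAux
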