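/-
S55 / leaf 34 → 35 (helper96): THE IDEAL PART of the Sys-level inflation invariance of the total
system (route (b) of the `s`-free `recT`, helper37 `RecTInfl`).

`L ≤ Lb` finite normal levels unramified outside `S`, `r := resLev : Gal(Lb/ℚ) → Gal(L/ℚ)`,
`φ := inclUnitsAdd : Lˣ → Lbˣ`.

* `idealMap_infl` : the divisor of `φ x` is the pull-back of the divisor of `x`
  (`IdealInfl.inflIS`): unramified valuations do not change.
* `idealSys_comap_idealMap_infl` : for a cocycle `f` on `N ≤ Gal(L/ℚ)` with values in `Lˣ`,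
  the ideal part `(idealSys Lb S θ hθ).comap (idealMap hb)` evaluated at `N.comap r` on the
  inflated cochain `φ ∘ f ∘ (r × r)` equals the ideal part at level `L` on `f`.
-/
import Mathlib
import Fermat.Agent.S55.IdeleCoh54.IdealInfl
import Fermat.Agent.S55.CLDescent35.Level
import Fermat.Agent.S55.IdeleVal44.Ideal
import Fermat.Agent.S55.CycloRecip37.GSys

set_option autoImplicit false
set_option linter.unusedSectionVars false

namespace Fermat.Agent.S55.CountWire96.RecTInflIdeal

open Fermat.Agent.S55.Idele73.Basic Fermat.Agent.S55.IdeleVal44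
  Fermat.Agent.S55.CLDescent35.Level Fermat.Agent.S55.IdeleCoh54.IdealInfl
  Fermat.Agent.S55.IdeleCoh54.IdealSys Fermat.Agent.S55.IdeleCoh54.UnrInfl
  Fermat.Agent.S55.CycloRecip37 Fermat.Agent.S55.CycloRecip37.GSys

attribute [local instance] factPrimes44 fintypeGalL

variable {L Lb : IntermediateField ℚ Qbar} [Normal ℚ L] [Normal ℚ Lb]
  [FiniteDimensional ℚ L] [FiniteDimensional ℚ Lb] (hLL : L ≤ Lb)
  {S : Finset Nat.Primes} (h : UnrOutside L S) (hb : UnrOutside Lb S)

/-- **the divisor map commutes with change of level.** -/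
theorem idealMap_infl (x : Lx L) :
    (idealMap hb).hom (inclUnitsAdd hLL x) =
      inflIS L Lb S (resLev hLL) (resLev_comp_resL hLL) ((idealMap h).hom x) := by
  apply dsRep.ext
  intro ℓ
  rw [inflIS_apply]
  apply Subtype.ext
  funext g
  apply Int.cast_injective (α := ℝ)
  rw [pullInt_apply, idealMap_coord, idealMap_coord]
  congr 2
  exact diag_inclLx hLL ℓ.1.1 x g

/-- **inflation invariance of the ideal part of the total system on `Lˣ`-valued cocycles.** -/
theorem idealSys_comap_idealMap_infl {T : Type*} [AddCommGroup T] (θ : ℚ →+ T) (hθ : θ 1 = 0)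
    (N : Subgroup (GalL L)) {f : GalL L × GalL L → Lx L} (hf : IsCocOn (Lx L) N f) :
    ((idealSys Lb S θ hθ).comap (idealMap hb)).S (N.comap (resLev hLL))
        (fun x => inclUnitsAdd hLL (f (resLev hLL x.1, resLev hLL x.2))) =
      ((idealSys L S θ hθ).comap (idealMap h)).S N f := by
  rw [Sys.comap_S, Sys.comap_S]
  have h2 := idealSys_infl L Lb S (resLev hLL) (resLev_comp_resL hLL) θ hθ N
    (f := fun y => (idealMap h).hom (f y)) (hom_isCocOn (idealMap h) hf)
  rw [← h2]
  congr 1
  funext x
  exact idealMap_infl hLL h hb _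

end Fermat.Agent.S55.CountWire96.RecTInflIdeal
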