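/-
S55 / P7' (helper96): **the Tate–Shafarevich groups at a level `U` (`ShaTransport84.USha₁`,
`USha₂`, trivial coefficients, conjugate family `t`) do not depend on the covering family of
conjugators.**

If `π (t') = π (t) * π (r h)` then `conjKer π r t' = inn(a) ∘ conjKer π r t ∘ c_h` with
`a = t' (t r(h))⁻¹ ∈ π.ker` and `c_h` the conjugation by `h` on the normal subgroup
`(π.comp r).ker` of `H`.  Inner automorphisms are homotopic to the identity
(`ShapiroLevel32.conj_cocycle₂`), and `c_h` preserves level coboundaries (levels are normal in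
`H`).  Hence a class which dies along `conjKer π r t` dies along `conjKer π r t'`.

Consequence: `P7Named84.ShaKummer p S` (stated for the canonical family `canonT'`) follows from
the kernel half of (S1) at the level `U` for ANY family of conjugators.
-/
import Fermat.Agent.S55.ShaTransport84.Transport
import Fermat.Agent.S55.ShapiroLevel32.Conj

set_option autoImplicit false

universe u

open CategoryTheory groupCohomology Module

namespace Fermat.Agent.S55.CountWire96.ShaIndep

open Fermat.Agent.S55.Profin15 Fermat.Agent.S55.ShapiroLevel32 Fermat.Agent.S55.ShaTransport84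

section Single

variable {k G Γ H : Type u} [CommRing k] [Group G] [Group Γ] [Group H]
variable {𝒰 : LevelStr G} {𝒱 : LevelStr H} {r : H →* G} {π : G →* Γ}

/-- conjugation by `h : H` on the normal subgroup `(π.comp r).ker` -/
def conjN (π : G →* Γ) (r : H →* G) (h : H) : (π.comp r).ker →* (π.comp r).ker where
  toFun n := ⟨h * (n : H) * h⁻¹, by
    have hn : (π.comp r) (n : H) = 1 := n.2
    rw [MonoidHom.mem_ker, map_mul, map_mul, hn, mul_one, map_inv, mul_inv_cancel]⟩
  map_one' := by
    apply Subtype.ext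
    simp
  map_mul' a b := by
    apply Subtype.ext
    simp only [Subgroup.coe_mul]
    group

@[simp] lemma coe_conjN (h : H) (n : (π.comp r).ker) :
    ((conjN π r h n : (π.comp r).ker) : H) = h * (n : H) * h⁻¹ := rfl

/-- the element `a = t' (t r(h))⁻¹` of `π.ker` -/
def corrElt {t t' : G} {h : H} (htt' : π t' = π t * π (r h)) : π.ker :=
  ⟨t' * (t * r h)⁻¹, by
    rw [MonoidHom.mem_ker, map_mul, map_inv, map_mul, htt', mul_inv_cancel]⟩

lemma conjKer_eq {t t' : G} {h : H} (htt' : π t' = π t * π (r h)) (n : (π.comp r).ker) :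
    conjKer π r t' n =
      corrElt htt' * conjKer π r t (conjN π r h n) * (corrElt htt')⁻¹ := by
  apply Subtype.ext
  simp only [corrElt, Subgroup.coe_mul, Subgroup.coe_inv, coe_conjKer, coe_conjN, map_mul,
    map_inv]
  group

/-- `b ∘ c_h` is level-constant if `b` is (levels are normal in `H`) -/
lemma isConst₁_comp_conjN (hk : ∃ V ∈ 𝒱.levels, V ≤ (π.comp r).ker) (h : H) {X : Type*}
    {b : (π.comp r).ker → X} (hb : (kerLevels 𝒱 hk).IsConst₁ b) :
    (kerLevels 𝒱 hk).IsConst₁ (fun n => b (conjN π r h n)) := by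
  obtain ⟨W', ⟨W, hW, hle, rfl⟩, hconst⟩ := hb
  have hWn : W.Normal := 𝒱.normal W hW
  refine ⟨W.subgroupOf (π.comp r).ker, ⟨W, hW, hle, rfl⟩, fun g s hs => ?_⟩
  show b (conjN π r h (g * s)) = b (conjN π r h g)
  rw [map_mul]
  refine hconst _ _ ?_
  rw [Subgroup.mem_subgroupOf, coe_conjN]
  exact hWn.conj_mem _ (Subgroup.mem_subgroupOf.1 hs) h

/-- **degree 2**: a class which dies along `conjKer π r t` dies along `conjKer π r t'` whenever
`π t' = π t * π (r h)`. -/
theorem trivRes₂_conjKer_eq_zero_of_mul (hr : LevelStr.IsContinuous 𝒱 𝒰 r)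
    (hker : ∃ V ∈ 𝒰.levels, V ≤ π.ker) {t t' : G} {h : H} (htt' : π t' = π t * π (r h))
    (x : (kerLevels 𝒰 hker).H2 (triv k π.ker))
    (hx : trivRes₂ (k := k) (conjKer_isContinuous hr hker t) x = 0) :
    trivRes₂ (k := k) (conjKer_isContinuous hr hker t') x = 0 := by
  obtain ⟨c, rfl⟩ := Submodule.mkQ_surjective _ x
  have hx' : (kerLevels 𝒱 (hker_comp hr hker)).H2π _
      (tresZ₂ (conjKer_isContinuous hr hker t) c) = 0 := hx
  rw [LevelStr.H2π_eq_zero_iff, coe_tresZ₂, LevelStr.mem_B₂_iff] at hx'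
  obtain ⟨b, hb, hbc⟩ := hx'
  show (kerLevels 𝒱 (hker_comp hr hker)).H2π _
      (tresZ₂ (conjKer_isContinuous hr hker t') c) = 0
  rw [LevelStr.H2π_eq_zero_iff, coe_tresZ₂, LevelStr.mem_B₂_iff]
  -- the cocycle and its level-constancy
  have hcZ := ((kerLevels 𝒰 hker).mem_Z₂_iff _ _).1 c.2
  set a : π.ker := corrElt htt' with ha
  set ψ : π.ker → triv k π.ker := conjHom₂ (triv k π.ker) a (c : π.ker × π.ker → triv k π.ker)
    with hψ
  have hψc : (kerLevels 𝒰 hker).IsConst₁ ψ :=
    isConst₁_conjHom₂ (triv k π.ker) (kerLevels 𝒰 hker) a hcZ.2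
  refine ⟨fun n => b (conjN π r h n) - ψ (conjKer π r t' n), ?_, ?_⟩
  · -- level-constancy
    have h1 := isConst₁_comp_conjN (hker_comp hr hker) h hb
    have h2 : (kerLevels 𝒱 (hker_comp hr hker)).IsConst₁ (ψ ∘ conjKer π r t') :=
      (conjKer_isContinuous hr hker t').isConst₁ hψc
    obtain ⟨W1, hW1, e1⟩ := h1
    obtain ⟨W2, hW2, e2⟩ := h2
    obtain ⟨W, hW, hWle⟩ := (kerLevels 𝒱 (hker_comp hr hker)).directed W1 hW1 W2 hW2
    refine ⟨W, hW, fun g s hs => ?_⟩
    have e1' := e1 g s (hWle hs).1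
    have e2' := e2 g s (hWle hs).2
    simp only [Function.comp_apply] at e2'
    simp only [e1', e2']
  · -- the coboundary identity
    funext ⟨n, m⟩
    have hbnm := congrFun hbc (conjN π r h n, conjN π r h m)
    rw [tpull₂_apply, d₁₂_triv] at hbnm
    have hconj := conj_cocycle₂ (triv k π.ker) hcZ.1 a
      (conjKer π r t (conjN π r h n)) (conjKer π r t (conjN π r h m))
    rw [← conjKer_eq htt' n, ← conjKer_eq htt' m, d₁₂_triv] at hconj
    have hρ : (triv k π.ker).ρ a ((c : π.ker × π.ker → triv k π.ker)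
        (conjKer π r t (conjN π r h n), conjKer π r t (conjN π r h m))) =
        (c : π.ker × π.ker → triv k π.ker)
          (conjKer π r t (conjN π r h n), conjKer π r t (conjN π r h m)) := rfl
    rw [hρ] at hconj
    rw [tpull₂_apply, d₁₂_triv]
    rw [map_mul, map_mul]
    rw [← hψ] at hconj
    linear_combination (norm := abel) hbnm + hconj

/-- **degree 1**: a class which dies along `conjKer π r t` dies along `conjKer π r t'` whenever
`π t' = π t * π (r h)`. -/
theorem trivRes₁_conjKer_eq_zero_of_mul (hr : LevelStr.IsContinuous 𝒱 𝒰 r)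
    (hker : ∃ V ∈ 𝒰.levels, V ≤ π.ker) {t t' : G} {h : H} (htt' : π t' = π t * π (r h))
    (x : (kerLevels 𝒰 hker).H1 (triv k π.ker))
    (hx : trivRes₁ (k := k) (conjKer_isContinuous hr hker t) x = 0) :
    trivRes₁ (k := k) (conjKer_isContinuous hr hker t') x = 0 := by
  obtain ⟨c, rfl⟩ := Submodule.mkQ_surjective _ x
  have hx' : (kerLevels 𝒱 (hker_comp hr hker)).H1π _
      (tresZ₁ (conjKer_isContinuous hr hker t) c) = 0 := hx
  rw [LevelStr.H1π_eq_zero_iff, coe_tresZ₁] at hx'
  have h0 := eq_zero_of_mem_coboundaries₁_triv hx'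
  show (kerLevels 𝒱 (hker_comp hr hker)).H1π _
      (tresZ₁ (conjKer_isContinuous hr hker t') c) = 0
  rw [LevelStr.H1π_eq_zero_iff, coe_tresZ₁]
  have hcZ := ((kerLevels 𝒰 hker).mem_Z₁_iff _ _).1 c.2
  have hadd := (mem_cocycles₁_triv (k := k) (H := π.ker) _).1 hcZ.1
  have hzero : tpull₁ k (conjKer π r t') (c : π.ker → triv k π.ker) = 0 := by
    funext n
    have h1 := congrFun h0 (conjN π r h n)
    rw [tpull₁_apply] at h1
    rw [tpull₁_apply, conjKer_eq htt' n, hadd, hadd]
    have h2 := hadd (corrElt htt') (corrElt htt')⁻¹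
    rw [mul_inv_cancel] at h2
    have h3 := hadd 1 1
    rw [mul_one] at h3
    have h4 : (c : π.ker → triv k π.ker) 1 = 0 := by
      have : (c : π.ker → triv k π.ker) 1 + 0 = (c : π.ker → triv k π.ker) 1 +
          (c : π.ker → triv k π.ker) 1 := by rw [add_zero]; exact h3
      exact (add_left_cancel this).symm
    rw [h1, Pi.zero_apply]
    rw [h4] at h2
    show (c : π.ker → triv k π.ker) (corrElt htt')⁻¹ + (0 + (c : π.ker → triv k π.ker) (corrElt htt')) = 0
    rw [zero_add]
    exact h2.symm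
  rw [hzero]
  exact Submodule.zero_mem _

end Single

section Family

variable {k G Γ : Type u} [CommRing k] [Group G] [Group Γ]
variable {𝒰 : LevelStr G} {π : G →* Γ}
variable {I : Type*} {Hl : I → Type u} [∀ v, Group (Hl v)] {𝒱 : ∀ v, LevelStr (Hl v)}
  {r : ∀ v, Hl v →* G} (hr : ∀ v, LevelStr.IsContinuous (𝒱 v) 𝒰 (r v))
  (hker : ∃ V ∈ 𝒰.levels, V ≤ π.ker)
  {J : I → Type*} {J' : I → Type*} (t : ∀ v, J v → G) (t' : ∀ v, J' v → G)

/-- **`USha₂` of a covering family is contained in `USha₂` of any family.** -/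
theorem USha₂_le_of_covers (hcov : ∀ v, Covers π r t v) :
    USha₂ (k := k) hr hker t ≤ USha₂ (k := k) hr hker t' := by
  intro x hx
  rw [mem_USha₂_iff] at hx ⊢
  intro v j'
  obtain ⟨i, h, hh⟩ := hcov v (π (t' v j'))
  exact trivRes₂_conjKer_eq_zero_of_mul (hr v) hker hh.symm x (hx v i)

/-- **`USha₁` of a covering family is contained in `USha₁` of any family.** -/
theorem USha₁_le_of_covers (hcov : ∀ v, Covers π r t v) :
    USha₁ (k := k) hr hker t ≤ USha₁ (k := k) hr hker t' := by
  intro x hx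
  rw [mem_USha₁_iff] at hx ⊢
  intro v j'
  obtain ⟨i, h, hh⟩ := hcov v (π (t' v j'))
  exact trivRes₁_conjKer_eq_zero_of_mul (hr v) hker hh.symm x (hx v i)

/-- two covering families define the same `USha₂` -/
theorem USha₂_eq_of_covers (hcov : ∀ v, Covers π r t v) (hcov' : ∀ v, Covers π r t' v) :
    USha₂ (k := k) hr hker t = USha₂ (k := k) hr hker t' :=
  le_antisymm (USha₂_le_of_covers hr hker t t' hcov) (USha₂_le_of_covers hr hker t' t hcov')

/-- two covering families define the same `USha₁` -/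
theorem USha₁_eq_of_covers (hcov : ∀ v, Covers π r t v) (hcov' : ∀ v, Covers π r t' v) :
    USha₁ (k := k) hr hker t = USha₁ (k := k) hr hker t' :=
  le_antisymm (USha₁_le_of_covers hr hker t t' hcov) (USha₁_le_of_covers hr hker t' t hcov')

end Family

end Fermat.Agent.S55.CountWire96.ShaIndep
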