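/-
S55 / P7' (helper96): **`P7Named84.ShaKummer p S` from the kernel half of (S1) at every level `U`
for ANY family of conjugators** (`USha₂` is independent of the covering family,
`CountWire96.ShaIndep.USha₂_le_of_covers`; the canonical family `canonT'` covers).

So the producers of `hsha` (46-S1 at the level `U`: `CountWire96.Hsha.hsha_of_sha2_iffV`,
`S2Count92.hsha_of_kernelHalf`, helper32 `KummerSq32`) may use the family `(J, t)` of their
formation datum (e.g. the representatives `RS S V hV q` of `D_q \ G_ℚ / V`), and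
`P7Named84.hilbertCount_of_named` applies unchanged.
-/
import Fermat.Agent.S55.CountWire96.ShaIndep
import Fermat.Agent.S55.P7Named84

set_option autoImplicit false
set_option linter.unusedSectionVars false

open CategoryTheory Module groupCohomology ExtCitation

namespace Fermat.Agent.S55.CountWire96.ShaKummerFamily

open Fermat.Agent.S55.Profin15 Fermat.Agent.S55.ShapiroLevel32
open Fermat.Agent.Lib.FrobeniusExists (Qb GQ)
open Fermat.Agent.S55.Contract34
open Fermat.Agent.S55.ShaTransport84 (rS hrS hker_mk' USha₂ covers_canonT)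
open Fermat.Agent.S55.CountWire23

variable {p : ℕ} [Fact p.Prime] {S : Finset Nat.Primes}

/-- `Ш²` at the level `U` for the canonical family is contained in `Ш²` for any family -/
theorem USha₂_canon_le (U : Subgroup GQ) [U.Normal] (hU : U ∈ (globalLevels S).levels)
    {J : ↥S → Type} (t : ∀ q : ↥S, J q → GQ) :
    USha₂ (k := ZMod p) (hrS S) (hker_mk' hU) (canonT' S U) ≤
      USha₂ (k := ZMod p) (hrS S) (hker_mk' hU) t :=
  ShaIndep.USha₂_le_of_covers (hrS S) (hker_mk' hU) (canonT' S U) t
    (fun q => covers_canonT (QuotientGroup.mk'_surjective U) (rS S) q)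

/-- **`ShaKummer` from `hsha` for any family of conjugators at each level.** -/
theorem shaKummer_of_family
    (h : ∀ (hpS : pPrime p ∈ S) (U : Subgroup GQ) [U.Normal]
      (hU : U ∈ (globalLevels S).levels) (hmu : ∀ s ∈ U, (mu p).ρ s = 1) (ζ : Qbˣ)
      (hζ : IsPrimitiveRoot ζ p),
      ∃ (J : ↥S → Type) (t : ∀ q : ↥S, J q → GQ),
        ∀ x ∈ USha₂ (k := ZMod p) (hrS S) (hker_mk' hU) t,
          ∃ a, S2Count92.kummerδ₁U hU hpS ζ hζ hmu a = x) :
    P7Named84.ShaKummer p S := by
  intro hpS U _ hU hmu ζ hζ x hx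
  obtain ⟨J, t, ht⟩ := h hpS U hU hmu ζ hζ
  exact ht x (USha₂_canon_le U hU t hx)

/-- **(P7') from (A34) + (A4) + `hsha` for any family.** -/
theorem hilbertCount_of_family (hp2 : p ≠ 2) (hpS : pPrime p ∈ S)
    (hrecip : Contract34.Reciprocity p S) (hbase : LocalBaseDim p S)
    (h : ∀ (hpS : pPrime p ∈ S) (U : Subgroup GQ) [U.Normal]
      (hU : U ∈ (globalLevels S).levels) (hmu : ∀ s ∈ U, (mu p).ρ s = 1) (ζ : Qbˣ)
      (hζ : IsPrimitiveRoot ζ p),
      ∃ (J : ↥S → Type) (t : ∀ q : ↥S, J q → GQ),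
        ∀ x ∈ USha₂ (k := ZMod p) (hrS S) (hker_mk' hU) t,
          ∃ a, S2Count92.kummerδ₁U hU hpS ζ hζ hmu a = x) :
    Contract34.HilbertCount p S :=
  P7Named84.hilbertCount_of_named hp2 hpS hrecip hbase (shaKummer_of_family h)

end Fermat.Agent.S55.CountWire96.ShaKummerFamily

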