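/-
S55 / P7' (helper96): the COUNT at one level for TRIVIAL coefficients, in the `trivRes`
vocabulary of `ShapiroLevel32.Mackey` (helper32) / `ShaTransport84` (helper84).

`G` a group with level structure `𝒰` (think `G = ↥(π.ker) = G_{L,S}`, `𝒰 = kerLevels …`), a finite
family of local groups `H w` with level structures `𝒱 w` and level-continuous `f w : H w →* G`
(think `conjKer π r_q t`), all coefficients `= triv k _` (`μ_p = 𝔽_p` over `L`), cup product
`= mulPairing` (multiplication of `k`).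

* `trivRes₁_eq_res₁`, `trivRes₂_eq_res₂` : `ShapiroLevel32.trivResₙ` IS `Profin15` restriction
  (`Rep.res φ (triv k H₁) = triv k H₂` by `rfl`).
* `shaT1 hf`, `shaT2 hf` : `⨅ w, ker (trivResₙ k (hf w))`; `shaT1_eq_iInf_sigma` etc. for a
  `Σ`-indexed family (the `⨅ v, ⨅ i : T v` shape).
* `finrank_shaT2_le_finrank_shaT1` : THE COUNT, inputs (K) `s ≤ dim E`, (Q)
  `dim shaT2 ≤ dim (H¹ ⧸ E)`, (L) `∑ w, dim H¹_w ≤ 2 s` + left-nondegenerate local forms, (R)
  reciprocity `∑ w, Λ w (trivRes₂ z) = 0`.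
* `finrank_shaT2_le_finrank_shaT1_of_symbol` : the same with (L)-nondegeneracy in the cochain
  form produced by `LocHilbert21` / `LevelCup47.Symbol`: `Λ w` injective and for every nonzero
  level character `a` a level character `b` with `(g, h) ↦ a g * b h` not a level coboundary.
-/
import Fermat.Agent.S55.CountWire96.Core
import Fermat.Agent.S55.LevelCup47.Symbol
import Fermat.Agent.S55.ShapiroLevel32.Mackey

set_option autoImplicit false

universe u

open CategoryTheory groupCohomology Module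

namespace Fermat.Agent.S55.CountWire96

open Fermat.Agent.S55.Profin15 Fermat.Agent.S55.Cup90 Fermat.Agent.S55.LevelCup47
open Fermat.Agent.S55.ShapiroLevel32

section Bridge

variable {k : Type u} [CommRing k] {H₁ H₂ : Type u} [Group H₁] [Group H₂] {φ : H₂ →* H₁}
  {𝒱₁ : LevelStr H₁} {𝒱₂ : LevelStr H₂} (hφ : LevelStr.IsContinuous 𝒱₂ 𝒱₁ φ)

/-- `trivRes₁` is the `Profin15` restriction (`Rep.res φ (triv k H₁) = triv k H₂` by `rfl`) -/
theorem trivRes₁_eq_res₁ (x : 𝒱₁.H1 (triv k H₁)) :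
    trivRes₁ k hφ x = hφ.res₁ (triv k H₁) x := by
  obtain ⟨c, rfl⟩ := Submodule.Quotient.mk_surjective _ x
  rfl

/-- `trivRes₂` is the `Profin15` restriction -/
theorem trivRes₂_eq_res₂ (x : 𝒱₁.H2 (triv k H₁)) :
    trivRes₂ k hφ x = hφ.res₂ (triv k H₁) x := by
  obtain ⟨c, rfl⟩ := Submodule.Quotient.mk_surjective _ x
  rfl

end Bridge

section Sha

variable {k G : Type u} [CommRing k] [Group G] {𝒰 : LevelStr G}
variable {ι : Type*} {H : ι → Type u} [∀ w, Group (H w)] {𝒱 : ∀ w, LevelStr (H w)}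
  {f : ∀ w, H w →* G} (hf : ∀ w, LevelStr.IsContinuous (𝒱 w) 𝒰 (f w))

variable (k) in
/-- `sha¹` with trivial coefficients: `⨅ w, ker (trivRes₁ along f w)` -/
def shaT1 : Submodule k (𝒰.H1 (triv k G)) := ⨅ w, LinearMap.ker (trivRes₁ k (hf w))

variable (k) in
/-- `sha²` with trivial coefficients: `⨅ w, ker (trivRes₂ along f w)` -/
def shaT2 : Submodule k (𝒰.H2 (triv k G)) := ⨅ w, LinearMap.ker (trivRes₂ k (hf w))

theorem mem_shaT1_iff (x : 𝒰.H1 (triv k G)) :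
    x ∈ shaT1 k hf ↔ ∀ w, trivRes₁ k (hf w) x = 0 := by
  simp [shaT1, Submodule.mem_iInf]

theorem mem_shaT2_iff (x : 𝒰.H2 (triv k G)) :
    x ∈ shaT2 k hf ↔ ∀ w, trivRes₂ k (hf w) x = 0 := by
  simp [shaT2, Submodule.mem_iInf]

end Sha

section Sigma

variable {k G : Type u} [CommRing k] [Group G] {𝒰 : LevelStr G}
variable {ι : Type*} {T : ι → Type*} {H : (Σ v, T v) → Type u} [∀ w, Group (H w)]
  {𝒱 : ∀ w, LevelStr (H w)} {f : ∀ w, H w →* G}
  (hf : ∀ w, LevelStr.IsContinuous (𝒱 w) 𝒰 (f w))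

/-- for a `Σ`-indexed family, `shaT1` is the double infimum `⨅ v, ⨅ i : T v` -/
theorem shaT1_eq_iInf_sigma :
    shaT1 k hf = ⨅ v, ⨅ i : T v, LinearMap.ker (trivRes₁ k (hf ⟨v, i⟩)) :=
  iInf_sigma

/-- for a `Σ`-indexed family, `shaT2` is the double infimum `⨅ v, ⨅ i : T v` -/
theorem shaT2_eq_iInf_sigma :
    shaT2 k hf = ⨅ v, ⨅ i : T v, LinearMap.ker (trivRes₂ k (hf ⟨v, i⟩)) :=
  iInf_sigma

end Sigma

section Field

variable {k G : Type u} [Field k] [Group G] {𝒰 : LevelStr G}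
variable {ι : Type*} {H : ι → Type u} [∀ w, Group (H w)] {𝒱 : ∀ w, LevelStr (H w)}
  {f : ∀ w, H w →* G} (hf : ∀ w, LevelStr.IsContinuous (𝒱 w) 𝒰 (f w))

theorem shaT1_eq_sha1 : shaT1 k hf = sha1 hf (triv k G) := by
  ext x
  rw [mem_shaT1_iff, mem_sha1_iff]
  exact forall_congr' fun w => by
    rw [trivRes₁_eq_res₁]
    exact Iff.rfl

theorem shaT2_eq_sha2 : shaT2 k hf = sha2 hf (triv k G) := by
  ext x
  rw [mem_shaT2_iff, mem_sha2_iff]
  exact forall_congr' fun w => by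
    rw [trivRes₂_eq_res₂]
    exact Iff.rfl

variable [Fintype ι] [DecidableEq ι]
  (Λ : ∀ w, (𝒱 w).H2 (triv k (H w)) →ₗ[k] k)

/-- **THE COUNT at one level, trivial coefficients, `trivRes` vocabulary.**
(K) `s ≤ dim E` for a subspace `E ≤ H¹(𝒰; k)` (the Kummer image of the `S`-units),
(Q) `dim sha² ≤ dim (H¹(𝒰; k) ⧸ E)`,
(L) `∑ w, dim H¹(𝒱 w; k) ≤ 2 s` and the local forms `Λ w ∘ ∪` are left-nondegenerate,
(R) reciprocity `∑ w, Λ w (res_w z) = 0` on `H²(𝒰; k)`.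
Then `dim sha² ≤ dim sha¹`. -/
theorem finrank_shaT2_le_finrank_shaT1
    [FiniteDimensional k (𝒰.H1 (triv k G))]
    [∀ w, FiniteDimensional k ((𝒱 w).H1 (triv k (H w)))]
    (hnd : ∀ w, (Iso.locPair (Symbol.mulPairing k G) hf Λ (Symbol.isSmooth_trivial 𝒰)
      w).SeparatingLeft)
    (hrec : ∀ z : 𝒰.H2 (triv k G), ∑ w, Λ w (trivRes₂ k (hf w) z) = 0)
    (E : Submodule k (𝒰.H1 (triv k G))) (s : ℕ) (hs : s ≤ finrank k E)
    (hW : ∑ w, finrank k ((𝒱 w).H1 (triv k (H w))) ≤ 2 * s)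
    (hQ : finrank k (shaT2 k hf) ≤ finrank k (𝒰.H1 (triv k G) ⧸ E)) :
    finrank k (shaT2 k hf) ≤ finrank k (shaT1 k hf) := by
  rw [shaT2_eq_sha2] at hQ ⊢
  rw [shaT1_eq_sha1]
  have : ∀ w, FiniteDimensional k ((𝒱 w).H1 (Rep.res (f w) (Rep.trivial k G k))) :=
    fun w => inferInstanceAs (FiniteDimensional k ((𝒱 w).H1 (triv k (H w))))
  exact finrank_sha2_le_finrank_sha1 hf (Symbol.mulPairing k G) Λ (Symbol.isSmooth_trivial 𝒰)
    hnd (fun z => (Finset.sum_congr rfl (fun w _ => by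
      rw [trivRes₂_eq_res₂]
      rfl)).symm.trans (hrec z))
    E.subtype E.injective_subtype E.mkQ E.mkQ_surjective
    (fun e => (Submodule.Quotient.mk_eq_zero E).2 e.2) s hs hW (triv k G) hQ

/-- The same with (L)-nondegeneracy in COCHAIN form (`LocHilbert21` / `LevelCup47.Symbol`):
`Λ w` injective, and for every nonzero level character `a : H w → k` there is a level character
`b` such that `(g, h) ↦ a g * b h` is not a level coboundary. -/
theorem finrank_shaT2_le_finrank_shaT1_of_symbol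
    [FiniteDimensional k (𝒰.H1 (triv k G))]
    [∀ w, FiniteDimensional k ((𝒱 w).H1 (triv k (H w)))]
    (hΛ : ∀ w, Function.Injective (Λ w))
    (hsym : ∀ (w : ι) (a : ↥((𝒱 w).Z₁ (triv k (H w)))), a ≠ 0 →
      ∃ b : ↥((𝒱 w).Z₁ (triv k (H w))),
        (fun x : H w × H w => ((a : H w → triv k (H w)) x.1 : k) *
          ((b : H w → triv k (H w)) x.2 : k)) ∉ (𝒱 w).B₂ (triv k (H w)))
    (hrec : ∀ z : 𝒰.H2 (triv k G), ∑ w, Λ w (trivRes₂ k (hf w) z) = 0)
    (E : Submodule k (𝒰.H1 (triv k G))) (s : ℕ) (hs : s ≤ finrank k E)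
    (hW : ∑ w, finrank k ((𝒱 w).H1 (triv k (H w))) ≤ 2 * s)
    (hQ : finrank k (shaT2 k hf) ≤ finrank k (𝒰.H1 (triv k G) ⧸ E)) :
    finrank k (shaT2 k hf) ≤ finrank k (shaT1 k hf) := by
  refine finrank_shaT2_le_finrank_shaT1 hf Λ (fun w => ?_) hrec E s hs hW hQ
  refine Symbol.locPair_separatingLeft_of_symbol (Symbol.mulPairing k G) hf Λ
    (Symbol.isSmooth_trivial 𝒰) w (hΛ w) (fun a ha => ?_)
  have ha0 : a ≠ 0 := fun h0 => ha (by
    rw [h0]
    exact map_zero _)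
  obtain ⟨b, hb⟩ := hsym w a ha0
  exact ⟨b, hb⟩

end Field

end Fermat.Agent.S55.CountWire96
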